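import Mathlib
import Fermat.Agent.VanDerWaerden.Dedekind

/-!
# An irreducible reduction gives a cyclically transitive automorphism
-/

namespace Fermat.Agent.ReducibleModP

open Polynomial
open scoped Polynomial

variable (f : ℤ[X]) {L : Type} [Field L] [Algebra ℚ L]

/-- The powers of `σ` permute the roots of `f` transitively: an `n`-cycle for `n` the number of
roots. -/
def CyclicOn (σ : L ≃ₐ[ℚ] L) : Prop :=
  ∀ x ∈ (f.map (Int.castRingHom ℚ)).rootSet L, ∀ y ∈ (f.map (Int.castRingHom ℚ)).rootSet L,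
    ∃ i : ℕ, (σ ^ i) x = y

variable {f}

lemma CyclicOn.conj {σ : L ≃ₐ[ℚ] L} (h : CyclicOn f σ) (g : L ≃ₐ[ℚ] L) :
    CyclicOn f (g * σ * g⁻¹) := by
  intro x hx y hy
  have hmem : ∀ z ∈ (f.map (Int.castRingHom ℚ)).rootSet L,
      g⁻¹ z ∈ (f.map (Int.castRingHom ℚ)).rootSet L := fun z hz =>
    rootSet_mapsTo (g⁻¹).toAlgHom hz
  obtain ⟨i, hi⟩ := h _ (hmem x hx) _ (hmem y hy)
  refine ⟨i, ?_⟩
  rw [conj_pow, AlgEquiv.mul_apply, AlgEquiv.mul_apply, hi]
  exact AlgEquiv.apply_symm_apply g y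

variable {p : ℕ} [hp : Fact p.Prime]

/-- An irreducible reduction gives an automorphism cyclically transitive on the roots. -/
theorem exists_cyclicOn_of_irreducible_mod [IsSplittingField ℚ L (f.map (Int.castRingHom ℚ))]
    (hf : f.Monic) (hirr : Irreducible (f.map (Int.castRingHom (ZMod p)))) :
    ∃ σ : L ≃ₐ[ℚ] L, CyclicOn f σ := by
  obtain ⟨σ, k, _, _, _, e, -, he, hσ⟩ := VanDerWaerden.exists_frobenius (L := L) hf
    (PerfectField.separable_of_irreducible hirr)
  refine ⟨σ, fun x hx y hy => ?_⟩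
  have hroot : ∀ z ∈ (f.map (Int.castRingHom ℚ)).rootSet L,
      aeval (e z) (f.map (Int.castRingHom (ZMod p))) = 0 :=
    fun z hz => (mem_rootSet.1 (he.mapsTo hz)).2
  have hiter : ∀ i : ℕ, (σ ^ i) x ∈ (f.map (Int.castRingHom ℚ)).rootSet L ∧
      e ((σ ^ i) x) = e x ^ p ^ i := by
    intro i
    induction i with
    | zero => simpa using hx
    | succ i ih =>
      rw [pow_succ', AlgEquiv.mul_apply]
      exact ⟨rootSet_mapsTo σ.toAlgHom ih.1, by rw [hσ _ ih.1, ih.2, ← pow_mul, pow_succ]⟩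
  obtain ⟨i, hi⟩ := VanDerWaerden.exists_pow_eq_of_irreducible hirr (hroot x hx) (hroot y hy)
  exact ⟨i, he.injOn (hiter i).1 hy ((hiter i).2.trans hi)⟩

end Fermat.Agent.ReducibleModP
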