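import Mathlib
import Fermat.Agent.ReducibleModP.Frobenius
import Fermat.Agent.Root.SummaryChebotarev

/-!
# The primes at which an irreducible polynomial stays irreducible

At all but finitely many primes `q`, the reduction is irreducible exactly when a Frobenius element
above `q` is cyclically transitive on the roots, so Chebotarev gives the density.
-/

namespace Fermat.Agent.ReducibleModP

open Polynomial NumberField IsDedekindDomain
open scoped Polynomial

variable {f : ℤ[X]} {L : Type} [Field L] [NumberField L]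

/-- At almost every prime: irreducible reduction iff the Frobenius elements are cyclic. -/
theorem exists_bad_primes (hf : f.Monic) (hirr : Irreducible (f.map (Int.castRingHom ℚ)))
    (hs : ((f.map (Int.castRingHom ℚ)).map (algebraMap ℚ L)).Splits) :
    ∃ N : ℕ, N ≠ 0 ∧ ∀ q : ℕ, q.Prime → ¬ q ∣ N → ∀ Q : Ideal (𝓞 L), Q.IsMaximal →
      (q : 𝓞 L) ∈ Q → ∀ τ : L ≃ₐ[ℚ] L, IsArithFrobAt ℤ τ Q →
        (Irreducible (f.map (Int.castRingHom (ZMod q))) ↔ CyclicOn f τ) := by
  classical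
  set fQ := f.map (Int.castRingHom ℚ) with hfQ
  set R := (fQ.rootSet L).toFinset
  have hR : ∀ {x}, x ∈ R ↔ x ∈ fQ.rootSet L := fun {x} => Set.mem_toFinset
  have hcard : R.card = f.natDegree := by
    rw [Set.toFinset_card, card_rootSet_eq_natDegree hirr.separable hs, hf.natDegree_map]
  have haeval : ∀ x ∈ R, aeval x f = 0 := fun x hx => by
    have h := (mem_rootSet.1 (hR.1 hx)).2
    rwa [hfQ, ← algebraMap_int_eq, aeval_map_algebraMap] at h
  have hint : ∀ x ∈ R, IsIntegral ℤ x := fun x hx => ⟨f, hf, by simpa [aeval_def] using haeval x hx⟩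
  let r : R → 𝓞 L := fun x => ⟨x.1, hint x.1 x.2⟩
  set D := ∏ z ∈ (Finset.univ : Finset R).offDiag, (r z.1 - r z.2) with hDdef
  have hD : D ≠ 0 := Finset.prod_ne_zero_iff.2 fun z hz h => (Finset.mem_offDiag.1 hz).2.2
    (Subtype.ext (congrArg (fun t : 𝓞 L => (t : L)) (sub_eq_zero.1 h)))
  refine ⟨Ideal.absNorm (Ideal.span {D}), by
    simpa [Ideal.absNorm_eq_zero_iff] using hD, fun q hq hdvd Q hQ hqQ τ hτ => ?_⟩
  have : Fact q.Prime := ⟨hq⟩
  have hQ0 : Q ≠ ⊥ := fun h => by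
    rw [h, Ideal.mem_bot] at hqQ
    exact hq.ne_zero (Nat.cast_eq_zero.1 hqQ)
  have hDQ : D ∉ Q := by
    intro h
    have h1 := Ideal.absNorm_mem (Ideal.span {D})
    have h2 : ((Ideal.absNorm (Ideal.span {D}) : ℕ) : 𝓞 L) ∈ Q :=
      (Ideal.span_singleton_le_iff_mem _).2 h h1
    obtain ⟨u, v, huv⟩ := Nat.isCoprime_iff_coprime.2 ((Nat.Prime.coprime_iff_not_dvd hq).2 hdvd)
    refine hQ.ne_top ((Ideal.eq_top_iff_one _).2 ?_)
    have h3 := Q.add_mem (Q.mul_mem_left (u : 𝓞 L) hqQ) (Q.mul_mem_left (v : 𝓞 L) h2)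
    have h4 := congrArg (fun t : ℤ => (t : 𝓞 L)) huv
    push_cast at h4
    rwa [h4] at h3
  let _ : Field (𝓞 L ⧸ Q) := Ideal.Quotient.field Q
  have : Finite (𝓞 L ⧸ Q) := Ideal.finiteQuotientOfFreeOfNeBot Q hQ0
  have : CharP (𝓞 L ⧸ Q) q := (CharP.charP_iff_prime_eq_zero hq).2 (by
    rw [← map_natCast (Ideal.Quotient.mk Q), Ideal.Quotient.eq_zero_iff_mem]
    exact hqQ)
  let _ : Algebra (ZMod q) (𝓞 L ⧸ Q) := ZMod.algebra _ q
  have : IsScalarTower ℤ (ZMod q) (𝓞 L ⧸ Q) := IsScalarTower.of_algebraMap_eq fun a => by simp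
  have : Module.Finite (ZMod q) (𝓞 L ⧸ Q) := Module.Finite.of_finite
  set fq := f.map (Int.castRingHom (ZMod q)) with hfq
  set res : R → 𝓞 L ⧸ Q := fun x => Ideal.Quotient.mk Q (r x) with hres
  have hresinj : Function.Injective res := by
    intro x y h
    by_contra hne
    exact hDQ (Ideal.mem_of_dvd _ (Finset.dvd_prod_of_mem (fun z : R × R => r z.1 - r z.2)
      (Finset.mem_offDiag.2
        (⟨Finset.mem_univ x, Finset.mem_univ y, hne⟩ : (x, y).1 ∈ _ ∧ (x, y).2 ∈ _ ∧ _)))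
        (Ideal.Quotient.eq.1 h))
  have hresroot : ∀ x : R, aeval (res x) fq = 0 := by
    intro x
    have h0 : aeval (r x) f = 0 := (FaithfulSMul.algebraMap_injective (𝓞 L) L).eq_iff.1 (by
      rw [map_zero, ← aeval_algebraMap_apply]
      exact haeval x.1 x.2)
    rw [hfq, ← algebraMap_int_eq, aeval_map_algebraMap, hres]
    simp only
    rw [← Ideal.Quotient.mkₐ_eq_mk ℤ, aeval_algHom_apply, h0, map_zero]
  have hfrob : ∀ z : 𝓞 L, Ideal.Quotient.mk Q (τ • z) = Ideal.Quotient.mk Q z ^ q := by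
    intro z
    have h1 := hτ z
    rw [FA.FrobeniusDensity.card_quotient_under hq hQ.ne_top hqQ] at h1
    rw [← map_pow, Ideal.Quotient.eq]
    exact h1
  have hmem : ∀ (x : R) (i : ℕ), (τ ^ i) x.1 ∈ R := fun x i =>
    hR.2 (rootSet_mapsTo (τ ^ i).toAlgHom (hR.1 x.2))
  have hiter : ∀ (x : R) (i : ℕ), res ⟨_, hmem x i⟩ = res x ^ q ^ i := by
    intro x i
    induction i with
    | zero => simp
    | succ i ih =>
      have hr : r ⟨_, hmem x (i + 1)⟩ = τ • r ⟨_, hmem x i⟩ := by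
        refine RingOfIntegers.ext ?_
        show (τ ^ (i + 1)) x.1 = τ ((τ ^ i) x.1)
        rw [pow_succ', AlgEquiv.mul_apply]
      simp only [hres] at ih ⊢
      rw [hr, hfrob, ih, ← pow_mul, pow_succ]
  have hfqm : fq.Monic := hf.map _
  refine ⟨fun hirrq => fun x hx y hy => ?_, fun hc => ?_⟩
  · obtain ⟨i, hi⟩ := VanDerWaerden.exists_pow_eq_of_irreducible hirrq
      (hresroot ⟨x, hR.2 hx⟩) (hresroot ⟨y, hR.2 hy⟩)
    exact ⟨i, congrArg Subtype.val (hresinj ((hiter ⟨x, hR.2 hx⟩ i).trans hi))⟩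
  · have hne : R.Nonempty := Finset.card_pos.1 (by
      rw [hcard, ← hf.natDegree_map (Int.castRingHom ℚ)]
      exact hirr.natDegree_pos)
    obtain ⟨x, hx⟩ := hne
    have hi : IsIntegral (ZMod q) (res ⟨x, hx⟩) := IsIntegral.of_finite _ _
    set m := minpoly (ZMod q) (res ⟨x, hx⟩)
    have hroots : ∀ y : R, aeval (res y) m = 0 := by
      intro y
      obtain ⟨i, hi⟩ := hc x (hR.1 hx) y.1 (hR.1 y.2)
      rw [show y = ⟨_, hmem ⟨x, hx⟩ i⟩ from Subtype.ext hi.symm, hiter]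
      clear hi
      induction i with
      | zero => rw [pow_zero, pow_one]; exact minpoly.aeval _ _
      | succ i ih =>
        rw [pow_succ, pow_mul, ← expand_aeval, ZMod.expand_card, map_pow, ih,
          zero_pow hq.ne_zero]
    have hdeg : fq.natDegree ≤ m.natDegree := by
      have h := card_le_degree_of_subset_roots (p := m.map (algebraMap (ZMod q) (𝓞 L ⧸ Q)))
        (Z := Finset.univ.image res) fun z hz => by
          obtain ⟨y, -, rfl⟩ := Finset.mem_image.1 hz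
          refine (mem_roots (map_monic_ne_zero (minpoly.monic hi))).2 ?_
          rw [IsRoot, eval_map_algebraMap]
          exact hroots y
      rw [natDegree_map, Finset.card_image_of_injective _ hresinj, Finset.card_univ,
        Fintype.card_coe, hcard] at h
      rwa [hfq, hf.natDegree_map]
    have : fq = m := eq_of_monic_of_dvd_of_natDegree_le (minpoly.monic hi) hfqm
      (minpoly.dvd _ _ (hresroot ⟨x, hx⟩)) hdeg
    exact this ▸ minpoly.irreducible hi

variable [IsGalois ℚ L]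

/-- A cyclic automorphism makes the reduction irreducible at infinitely many primes. -/
theorem infinite_irreducible_mod (hf : f.Monic) (hirr : Irreducible (f.map (Int.castRingHom ℚ)))
    (hs : ((f.map (Int.castRingHom ℚ)).map (algebraMap ℚ L)).Splits) {σ : L ≃ₐ[ℚ] L}
    (hσ : CyclicOn f σ) :
    {q : ℕ | q.Prime ∧ Irreducible (f.map (Int.castRingHom (ZMod q)))}.Infinite := by
  obtain ⟨N, hN0, hN⟩ := exists_bad_primes hf hirr hs
  refine ((FA.Summary.chebotarev_infinite L σ).sdiff N.divisors.finite_toSet).mono ?_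
  rintro q ⟨⟨hq, Q, hQ, hqQ, -, hτ⟩, hd⟩
  exact ⟨hq, (hN q hq (fun h => hd (Nat.mem_divisors.2 ⟨h, hN0⟩)) Q hQ hqQ σ hτ).2 hσ⟩

/-- **The density of the primes of irreducible reduction** is the proportion of cyclically
transitive automorphisms. -/
theorem hasDirichletDensity_irreducible_mod (hf : f.Monic)
    (hirr : Irreducible (f.map (Int.castRingHom ℚ)))
    (hs : ((f.map (Int.castRingHom ℚ)).map (algebraMap ℚ L)).Splits) :
    {v : HeightOneSpectrum (𝓞 ℚ) |
      Irreducible (f.map (Int.castRingHom (ZMod (Ideal.absNorm v.asIdeal))))}.HasDirichletDensity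
      ((Nat.card {σ : L ≃ₐ[ℚ] L | CyclicOn f σ} : ℝ) / Nat.card (L ≃ₐ[ℚ] L)) := by
  obtain ⟨N, hN0, hN⟩ := exists_bad_primes hf hirr hs
  have hd := FA.Summary.chebotarev_density L {σ : L ≃ₐ[ℚ] L | CyclicOn f σ}
    fun g hg x => hg.conj x
  have hfin : {v : HeightOneSpectrum (𝓞 ℚ) | Ideal.absNorm v.asIdeal ∣ N}.Finite := by
    refine ((Set.Finite.biUnion (t := fun d => {I : Ideal (𝓞 ℚ) | Ideal.absNorm I = d})
      N.divisors.finite_toSet fun d _ => Ideal.finite_setOfPred_absNorm_eq (S := 𝓞 ℚ) d).preimage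
      fun v _ w _ h => HeightOneSpectrum.ext h).subset fun v hv => ?_
    exact Set.mem_iUnion₂.mpr ⟨_, Finset.mem_coe.mpr (Nat.mem_divisors.mpr ⟨hv, hN0⟩), rfl⟩
  refine FA.Chebotarev.hasDirichletDensity_congr (hfin.subset ?_) (hfin.subset ?_) hd
  · rintro v ⟨hv, hv'⟩
    by_contra hdvd
    have hq := FA.Chebotarev.absNorm_prime v
    set q := Ideal.absNorm v.asIdeal
    have hne : Ideal.span {(q : 𝓞 L)} ≠ ⊤ := by
      intro h
      have h1 := congrArg Ideal.absNorm h
      rw [Ideal.absNorm_span_singleton, Ideal.absNorm_top, ← map_natCast (algebraMap ℤ (𝓞 L)),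
        Algebra.norm_algebraMap, Int.natAbs_pow, Int.natAbs_natCast, pow_eq_one_iff] at h1
      exact h1.elim hq.ne_one Module.finrank_pos.ne'
    obtain ⟨Q, hQ, hqQ⟩ := Ideal.exists_le_maximal _ hne
    have hqQ' : (q : 𝓞 L) ∈ Q := hqQ (Ideal.mem_span_singleton_self _)
    have : Finite (𝓞 L ⧸ Q) := Ideal.finiteQuotientOfFreeOfNeBot Q fun h => by
      rw [h, Ideal.mem_bot] at hqQ'
      exact hq.ne_zero (Nat.cast_eq_zero.1 hqQ')
    obtain ⟨τ, hτ⟩ := IsArithFrobAt.exists_of_isInvariant ℤ (L ≃ₐ[ℚ] L) Q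
    exact hv' ⟨Q, hQ, hqQ', τ, (hN q hq hdvd Q hQ hqQ' τ hτ).1 hv, hτ⟩
  · rintro v ⟨⟨Q, hQ, hqQ, τ, hτ, hτQ⟩, hv⟩
    by_contra hdvd
    exact hv ((hN _ (FA.Chebotarev.absNorm_prime v) hdvd Q hQ hqQ τ hτQ).2 hτ)

end Fermat.Agent.ReducibleModP
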