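import Mathlib
import Fermat.Agent.Root.SummaryChebotarev

/-!
# An element whose norm is a power but which is not one

At a totally split prime of a Galois number field `K` we build an element `a` generating `K` whose
norm to `ℚ` is a `p`-th power although `a` is not one.
-/

namespace Fermat.Agent.ReducibleModP

open NumberField IsDedekindDomain WithZero
open scoped Pointwise

variable {K : Type} [Field K] [NumberField K] [IsGalois ℚ K]

/-- A maximal ideal with trivial decomposition group. -/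
lemma exists_split_ideal :
    ∃ Q : Ideal (𝓞 K), Q.IsMaximal ∧ Q ≠ ⊥ ∧ ∀ τ : K ≃ₐ[ℚ] K, τ • Q = Q → τ = 1 := by
  obtain ⟨q, hq, Q, hQ, hqQ, hin, hfrob⟩ := (FA.Summary.chebotarev_infinite K 1).nonempty
  have : Fact q.Prime := ⟨hq⟩
  have hQ0 : Q ≠ ⊥ := fun h => by
    rw [h, Ideal.mem_bot] at hqQ
    exact hq.ne_zero (Nat.cast_eq_zero.1 hqQ)
  refine ⟨Q, hQ, hQ0, fun τ hτ => ?_⟩
  refine (Subgroup.eq_bot_iff_forall _).1 hin τ fun y => ?_
  let _ : Field (𝓞 K ⧸ Q) := Ideal.Quotient.field Q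
  have : CharP (𝓞 K ⧸ Q) q := (CharP.charP_iff_prime_eq_zero hq).2 (by
    rw [← map_natCast (Ideal.Quotient.mk Q), Ideal.Quotient.eq_zero_iff_mem]
    exact hqQ)
  have hy : Ideal.Quotient.mk Q y ^ q = Ideal.Quotient.mk Q y := by
    have h1 := hfrob y
    rw [FA.FrobeniusDensity.card_quotient_under hq hQ.ne_top hqQ] at h1
    rw [← map_pow, eq_comm, Ideal.Quotient.eq]
    simpa using h1
  rw [← Subfield.mem_bot_iff_pow_eq_self (𝓞 K ⧸ Q) q, ← ZMod.fieldRange_castHom_eq_bot q,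
    RingHom.mem_fieldRange] at hy
  obtain ⟨m, hm⟩ := hy
  rw [ZMod.castHom_apply, ZMod.cast_eq_val, ← map_natCast (Ideal.Quotient.mk Q),
    Ideal.Quotient.eq] at hm
  have h2 := Ideal.smul_mem_pointwise_smul τ _ _ hm
  rw [hτ, smul_sub, show τ • (m.val : 𝓞 K) = m.val from
    map_natCast (MulSemiringAction.toRingHom (K ≃ₐ[ℚ] K) (𝓞 K) τ) m.val] at h2
  show τ • y - y ∈ Q
  have h3 := Q.sub_mem hm h2
  rwa [show (m.val : 𝓞 K) - y - ((m.val : 𝓞 K) - τ • y) = τ • y - y by ring] at h3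

/-- An element generating `K`, not a `p`-th power, with norm a `p`-th power. -/
theorem exists_element (hK : 2 ≤ Module.finrank ℚ K) {p : ℕ} (hp : 2 ≤ p) :
    ∃ a : 𝓞 K, (∀ τ : K ≃ₐ[ℚ] K, τ (a : K) = a → τ = 1) ∧ (∀ c : K, c ^ p ≠ a) ∧
      ∃ c : ℚ, c ≠ 0 ∧ ∏ τ : K ≃ₐ[ℚ] K, τ (a : K) = (c : K) ^ p := by
  classical
  obtain ⟨Q, hQ, hQ0, hstab⟩ := exists_split_ideal (K := K)
  obtain ⟨π, hπ, hπ'⟩ := SetLike.exists_of_lt (Ideal.pow_lt_self Q hQ0 hQ.ne_top 2 le_rfl)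
  have hmax : ∀ τ : K ≃ₐ[ℚ] K, (τ • Q).IsMaximal := fun τ => by
    rw [Ideal.pointwise_smul_eq_comap]
    exact Ideal.comap_isMaximal_of_surjective _
      (MulSemiringAction.toRingEquiv (K ≃ₐ[ℚ] K) (𝓞 K) τ⁻¹).surjective
  obtain ⟨b, hb⟩ := exists_forall_sub_mem_ideal (s := (Finset.univ : Finset (K ≃ₐ[ℚ] K)))
    (fun τ => τ • Q) (fun τ => if τ = 1 then 2 else 1)
    (fun τ _ => Ideal.prime_of_isPrime (fun h => hQ0 (by
      rw [← inv_smul_smul τ Q, h]
      exact Ideal.smul_bot τ⁻¹)) (hmax τ).isPrime)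
    (fun τ _ τ' _ hne h => hne (inv_mul_eq_one.1 (hstab _ (by
      rw [mul_smul, inv_smul_eq_iff]; exact h))).symm)
    (fun τ => if (τ : K ≃ₐ[ℚ] K) = 1 then π else 1)
  have hb1 : b - π ∈ Q ^ 2 := by simpa using hb 1 (Finset.mem_univ _)
  have hbQ : b ∈ Q := by
    have := Q.add_mem (Ideal.pow_le_self two_ne_zero hb1) hπ
    rwa [sub_add_cancel] at this
  have hbQ' : b ∉ Q ^ 2 := fun h => hπ' (by
    have := (Q ^ 2).sub_mem h hb1
    rwa [sub_sub_cancel] at this)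
  have hbτ : ∀ τ : K ≃ₐ[ℚ] K, τ • b ∈ Q → τ = 1 := by
    intro τ hτ
    by_contra hne
    have hne' : τ⁻¹ ≠ 1 := inv_ne_one.2 hne
    have h1 := hb τ⁻¹ (Finset.mem_univ _)
    simp only [if_neg hne', pow_one] at h1
    have h2 : b ∈ τ⁻¹ • Q := by rwa [Ideal.mem_pointwise_smul_iff_inv_smul_mem, inv_inv]
    refine (hmax τ⁻¹).ne_top ((Ideal.eq_top_iff_one _).2 ?_)
    have := (τ⁻¹ • Q).sub_mem h2 h1
    rwa [sub_sub_cancel] at this
  obtain ⟨σ, hσ⟩ : ∃ σ : K ≃ₐ[ℚ] K, σ ≠ 1 := by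
    have : Nontrivial (K ≃ₐ[ℚ] K) := Finite.one_lt_card_iff_nontrivial.1 (by
      rw [IsGalois.card_aut_eq_finrank]; omega)
    exact exists_ne 1
  let v : HeightOneSpectrum (𝓞 K) := ⟨Q, hQ.isPrime, hQ0⟩
  have hvb : v.intValuation b = exp (-1 : ℤ) := by
    have h1 : v.intValuation b ≤ exp (-1 : ℤ) := by
      have := (v.intValuation_le_pow_iff_mem b 1).2 (by simpa [v] using hbQ)
      simpa using this
    have h2 : ¬ v.intValuation b ≤ exp (-2 : ℤ) := by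
      intro h
      exact hbQ' ((v.intValuation_le_pow_iff_mem b 2).1 (by simpa using h))
    have h0 : v.intValuation b ≠ 0 := fun h => h2 (h ▸ zero_le)
    rw [← exp_log h0, exp_le_exp] at h1 h2
    rw [← exp_log h0]
    congr 1
    omega
  have hv1 : ∀ τ : K ≃ₐ[ℚ] K, τ ≠ 1 → v.intValuation (τ • b) = 1 := fun τ hτ =>
    v.intValuation_eq_one_iff.2 fun h => hτ (hbτ τ h)
  set a := b ^ (p + 1) * (σ • b) ^ (p - 1) with ha
  have hva : v.intValuation a = exp (-((p : ℤ) + 1)) := by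
    rw [ha, map_mul, map_pow, map_pow, hvb, hv1 σ hσ, one_pow, mul_one, ← exp_nsmul]
    simp
  have haQ : a ∈ Q := Ideal.mul_mem_right _ _ (Ideal.pow_mem_of_mem _ hbQ _ p.succ_pos)
  refine ⟨a, fun τ hτ => ?_, fun c hc => ?_, ?_⟩
  · have hfix : τ • a = a := RingOfIntegers.ext hτ
    have hmem : τ • a ∈ Q := hfix.symm ▸ haQ
    rw [ha, smul_mul', smul_pow', smul_pow', ← mul_smul] at hmem
    rcases hQ.isPrime.mem_or_mem hmem with h | h
    · exact hbτ _ (hQ.isPrime.mem_of_pow_mem _ h)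
    exfalso
    have hτσ := hbτ _ (hQ.isPrime.mem_of_pow_mem _ h)
    have hτ1 : τ ≠ 1 := fun h1 => hσ (by rwa [h1, one_mul] at hτσ)
    have hv := congrArg v.intValuation hfix
    rw [hva, ha, smul_mul', smul_pow', smul_pow', ← mul_smul, hτσ, one_smul, map_mul, map_pow,
      map_pow, hv1 τ hτ1, hvb, one_pow, one_mul, ← exp_nsmul, exp_inj] at hv
    simp only [smul_neg, nsmul_eq_mul, mul_one] at hv
    omega
  · have hint : IsIntegral ℤ c := IsIntegral.of_pow (by omega : 0 < p) (hc ▸ a.2)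
    obtain ⟨z, hz⟩ : ∃ z : 𝓞 K, (z : K) = c := ⟨⟨c, hint⟩, rfl⟩
    have h : z ^ p = a := RingOfIntegers.ext (by rw [← hc, ← hz]; exact map_pow _ _ _)
    have h1 := congrArg (fun x => log (v.intValuation x)) h
    simp only [map_pow, hva, log_pow, log_exp, nsmul_eq_mul] at h1
    have h2 : (p : ℤ) ∣ 1 := ⟨-(log (v.intValuation z)) - 1, by linarith⟩
    have := Int.le_of_dvd one_pos h2
    omega
  · set B := ∏ τ : K ≃ₐ[ℚ] K, τ (b : K) with hB
    have hfixB : ∀ g : K ≃ₐ[ℚ] K, g B = B := fun g => by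
      rw [hB, map_prod]
      exact Fintype.prod_equiv (Equiv.mulLeft g) _ _ fun τ => rfl
    obtain ⟨c, hc⟩ := IntermediateField.mem_bot.1 ((IsGalois.mem_bot_iff_fixed B).2 hfixB)
    rw [eq_ratCast] at hc
    have hb0 : (b : K) ≠ 0 := fun h => hbQ' (by
      rw [show b = 0 from RingOfIntegers.ext h]
      exact zero_mem _)
    refine ⟨c ^ 2, pow_ne_zero 2 fun h => ?_, ?_⟩
    · rw [h, Rat.cast_zero, hB, eq_comm, Finset.prod_eq_zero_iff] at hc
      obtain ⟨τ, -, hτ⟩ := hc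
      exact hb0 ((map_eq_zero τ).1 hτ)
    · have hshift : ∏ τ : K ≃ₐ[ℚ] K, τ (σ (b : K)) = B :=
        Fintype.prod_equiv (Equiv.mulRight σ) _ _ fun τ => rfl
      have hcoe : ∀ τ : K ≃ₐ[ℚ] K,
          τ (a : K) = τ (b : K) ^ (p + 1) * τ (σ (b : K)) ^ (p - 1) := fun τ => by
        simp only [ha, map_mul, map_pow]
        rfl
      rw [Finset.prod_congr rfl fun τ _ => hcoe τ, Finset.prod_mul_distrib, Finset.prod_pow,
        Finset.prod_pow, hshift, ← hB, ← pow_add, Rat.cast_pow, hc, ← pow_mul]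
      congr 1
      omega

end Fermat.Agent.ReducibleModP
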