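import Mathlib
import Fermat.Agent.ReducibleModP.Frobenius
import Fermat.Agent.ReducibleModP.Element
import Fermat.Agent.Root.SummaryAbelianInverseGalois

/-!
# Irreducible polynomials reducible modulo every prime, in every composite degree

Let `p` be the least prime divisor of `n = p r`, `K` cyclic of degree `r` and `θ ^ p = a` with `a`
from `exists_element`. An automorphism permuting the `n` conjugates of `θ` cyclically fixes `μ_p`,
as `n` is prime to `p - 1`, hence fixes `θ · gθ ⋯ g^(r-1)θ`, a root of unity times a rational;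
so `g ^ r θ = θ`, which is absurd.
-/

namespace Fermat.Agent.ReducibleModP

open Polynomial
open scoped Polynomial IntermediateField

local notation "Qb" => AlgebraicClosure ℚ

variable {f : ℤ[X]}

/-- An irreducible reduction gives a cyclically transitive automorphism of `ℚ̄`. -/
theorem exists_cyclicOn_algebraicClosure {ℓ : ℕ} [Fact ℓ.Prime] (hf : f.Monic)
    (hirr : Irreducible (f.map (Int.castRingHom (ZMod ℓ)))) :
    ∃ g : Qb ≃ₐ[ℚ] Qb, CyclicOn f g := by
  set F := (f.map (Int.castRingHom ℚ)).SplittingField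
  let : Algebra ℚ F := SplittingField.instAlgebra_1 _
  have : IsSplittingField ℚ F (f.map (Int.castRingHom ℚ)) := IsSplittingField.splittingField _
  obtain ⟨σ, hσ⟩ := exists_cyclicOn_of_irreducible_mod (L := F) hf hirr
  let ι : F →ₐ[ℚ] Qb :=
    IsSplittingField.lift F (f.map (Int.castRingHom ℚ)) (IsAlgClosed.splits _)
  let : Algebra F Qb := ι.toRingHom.toAlgebra
  have : IsScalarTower ℚ F Qb := IsScalarTower.of_algebraMap_eq fun r => (ι.commutes r).symm
  have hg : ∀ (i : ℕ) (x : F), (σ.liftNormal Qb ^ i) (ι x) = ι ((σ ^ i) x) := by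
    intro i x
    induction i with
    | zero => rfl
    | succ i ih =>
      rw [pow_succ', AlgEquiv.mul_apply, ih, pow_succ', AlgEquiv.mul_apply]
      exact σ.liftNormal_commutes Qb _
  refine ⟨σ.liftNormal Qb, fun x hx y hy => ?_⟩
  rw [← Splits.image_rootSet (IsSplittingField.splits F _) ι] at hx hy
  obtain ⟨x, hx, rfl⟩ := hx
  obtain ⟨y, hy, rfl⟩ := hy
  obtain ⟨i, hi⟩ := hσ x hx y hy
  exact ⟨i, by rw [hg, hi]⟩

/-- The roots of an irreducible polynomial are `x, gx, …` with exact period the degree. -/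
lemma iterate_eq_self_iff {q : ℚ[X]} (hq : Irreducible q) {g : Qb ≃ₐ[ℚ] Qb}
    (hg : ∀ x ∈ q.rootSet Qb, ∀ y ∈ q.rootSet Qb, ∃ i : ℕ, (g ^ i) x = y) {x : Qb}
    (hx : x ∈ q.rootSet Qb) {j : ℕ} : (g ^ j) x = x ↔ q.natDegree ∣ j := by
  classical
  have hroot : ∀ i : ℕ, (g ^ i) x ∈ q.rootSet Qb := fun i =>
    rootSet_mapsTo (g ^ i).toAlgHom hx
  obtain ⟨i, hi⟩ := hg _ (hroot 1) x hx
  have hper : Function.minimalPeriod g x ∣ i + 1 := by
    refine Function.isPeriodicPt_iff_minimalPeriod_dvd.1 ?_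
    rw [Function.IsPeriodicPt, Function.IsFixedPt, ← AlgEquiv.coe_pow, pow_succ,
      AlgEquiv.mul_apply]
    rw [pow_one] at hi
    exact hi
  set m := Function.minimalPeriod g x
  have hm : 0 < m := Nat.pos_of_dvd_of_pos hper i.succ_pos
  have hcard : (q.rootSet Qb).toFinset.card = q.natDegree := by
    rw [Set.toFinset_card, card_rootSet_eq_natDegree hq.separable (IsAlgClosed.splits _)]
  have himage : (q.rootSet Qb).toFinset = (Finset.range m).image fun i => g^[i] x := by
    refine Finset.Subset.antisymm (fun y hy => ?_) fun y hy => ?_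
    · obtain ⟨k, hk⟩ := hg x hx y (Set.mem_toFinset.1 hy)
      refine Finset.mem_image.2 ⟨k % m, Finset.mem_range.2 (Nat.mod_lt _ hm), ?_⟩
      rw [Function.iterate_mod_minimalPeriod_eq, ← AlgEquiv.coe_pow]
      exact hk
    · obtain ⟨k, -, rfl⟩ := Finset.mem_image.1 hy
      rw [Set.mem_toFinset, ← AlgEquiv.coe_pow]
      exact hroot k
  have hmdeg : m = q.natDegree := by
    rw [← hcard, himage, Finset.card_image_of_injOn, Finset.card_range]
    exact fun a ha b hb h =>
      Function.iterate_injOn_Iio_minimalPeriod (Finset.mem_range.1 ha) (Finset.mem_range.1 hb) h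
  rw [← hmdeg, ← Function.isPeriodicPt_iff_minimalPeriod_dvd, AlgEquiv.coe_pow]
  rfl

/-- The key computation: no automorphism permutes the conjugates of `θ` cyclically. -/
theorem not_cyclic_radical {K : IntermediateField ℚ Qb} [FiniteDimensional ℚ K] [IsGalois ℚ K]
    {p : ℕ} (hp : p.Prime) (hr : 2 ≤ Module.finrank ℚ K)
    (hcop : (Module.finrank ℚ K * p).Coprime (p - 1)) {a : K}
    (hgen : ∀ τ : K ≃ₐ[ℚ] K, τ a = a → τ = 1) {c : ℚ} (hc0 : c ≠ 0)
    (hnorm : ∏ τ : K ≃ₐ[ℚ] K, τ a = algebraMap ℚ K c ^ p) {q : ℚ[X]} (hq : Irreducible q)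
    (hdeg : q.natDegree = Module.finrank ℚ K * p) {θ : Qb} (hθq : θ ∈ q.rootSet Qb)
    (hθ : θ ^ p = a) {g : Qb ≃ₐ[ℚ] Qb}
    (hg : ∀ x ∈ q.rootSet Qb, ∀ y ∈ q.rootSet Qb, ∃ i : ℕ, (g ^ i) x = y) : False := by
  classical
  set r := Module.finrank ℚ K with hrdef
  have : NeZero p := ⟨hp.ne_zero⟩
  set γ := g.restrictNormal K
  have hcoe : ∀ (i : ℕ) (x : K), ((γ ^ i) x : Qb) = (g ^ i) (x : Qb) := by
    intro i x
    induction i with
    | zero => rfl
    | succ i ih =>
      rw [pow_succ', AlgEquiv.mul_apply, pow_succ', AlgEquiv.mul_apply, ← ih]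
      exact g.restrictNormal_commutes K _
  have hall : ∀ τ : K ≃ₐ[ℚ] K, ∃ i : ℕ, τ = γ ^ i := by
    intro τ
    obtain ⟨i, hi⟩ := hg θ hθq _ (rootSet_mapsTo (τ.liftNormal Qb).toAlgHom hθq)
    refine ⟨i, (inv_mul_eq_one.1 (hgen _ ?_)).symm⟩
    rw [AlgEquiv.mul_apply]
    have h : (γ ^ i) a = τ a := Subtype.ext (by
      rw [hcoe, ← hθ, map_pow, hi]
      change (τ.liftNormal Qb) θ ^ p = _
      rw [← map_pow, hθ]
      exact τ.liftNormal_commutes Qb a)
    rw [← h]
    exact AlgEquiv.symm_apply_apply (γ ^ i) a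
  have hord : orderOf γ = r := by
    rw [hrdef, ← IsGalois.card_aut_eq_finrank ℚ K, ← Nat.card_zpowers]
    refine Nat.card_congr ((Equiv.subtypeUnivEquiv fun τ => ?_))
    obtain ⟨i, rfl⟩ := hall τ
    exact ⟨(i : ℤ), zpow_natCast γ i⟩
  have hprod : ∏ i ∈ Finset.range r, (γ ^ i) a = ∏ τ : K ≃ₐ[ℚ] K, τ a := by
    refine Finset.prod_nbij (fun i => γ ^ i) (fun i _ => Finset.mem_univ _) ?_ ?_ fun i _ => rfl
    · intro i hi j hj h
      exact pow_injOn_Iio_orderOf (hord ▸ Finset.mem_range.1 hi)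
        (hord ▸ Finset.mem_range.1 hj) h
    · intro τ _
      obtain ⟨i, rfl⟩ := hall τ
      exact ⟨i % r, Finset.mem_range.2 (Nat.mod_lt _ (by omega)),
        by simp only; rw [← hord, pow_mod_orderOf]⟩
  set η := ∏ i ∈ Finset.range r, (g ^ i) θ with hη
  have hηp : η ^ p = algebraMap ℚ Qb c ^ p := by
    rw [hη, ← Finset.prod_pow]
    simp only [← map_pow, hθ, ← hcoe]
    rw [show ∏ i ∈ Finset.range r, (((γ ^ i) a : K) : Qb) = K.val (∏ i ∈ Finset.range r, (γ ^ i) a)
      from (map_prod K.val _ _).symm, hprod, hnorm]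
    simp only [map_pow, eq_ratCast, map_ratCast]
  have hc' : algebraMap ℚ Qb c ≠ 0 := (_root_.map_ne_zero _).2 hc0
  have hθ0 : θ ≠ 0 := by
    intro h
    rw [h, zero_pow hp.ne_zero] at hθ
    obtain ⟨τ, hτ⟩ : ∃ τ : K ≃ₐ[ℚ] K, τ ≠ 1 := by
      have : Nontrivial (K ≃ₐ[ℚ] K) := Finite.one_lt_card_iff_nontrivial.1 (by
        rw [IsGalois.card_aut_eq_finrank]; omega)
      exact exists_ne 1
    refine hτ (hgen τ ?_)
    rw [show a = 0 from Subtype.ext hθ.symm, map_zero]
  have hn : ∀ x ∈ q.rootSet Qb, (g ^ (r * p)) x = x := fun x hx =>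
    (iterate_eq_self_iff hq hg hx).2 (hdeg ▸ dvd_rfl)
  set ξ := (g ^ r) θ / θ with hξ
  have hξp : ξ ^ p = 1 := by
    rw [hξ, div_pow, ← map_pow, hθ, ← hcoe, show γ ^ r = 1 from hord ▸ pow_orderOf_eq_one γ]
    exact div_self (hθ ▸ pow_ne_zero p hθ0)
  have hξ1 : ξ ≠ 1 := fun h => by
    rw [hξ, div_eq_one_iff_eq hθ0, iterate_eq_self_iff hq hg hθq, hdeg] at h
    have := Nat.le_of_dvd (by omega) h
    have := hp.two_le
    nlinarith
  have : Fact p.Prime := ⟨hp⟩
  have hprim : IsPrimitiveRoot ξ p := IsPrimitiveRoot.iff_orderOf.2 (orderOf_eq_prime hξp hξ1)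
  have hξn : (g ^ (r * p)) ξ = ξ := by
    have hmem : (g ^ r) θ ∈ q.rootSet Qb := rootSet_mapsTo (g ^ r).toAlgHom hθq
    rw [hξ, map_div₀, hn _ hθq, hn _ hmem]
  have hgξ : g ξ = ξ := by
    have h1 : (hprim.autToPow ℚ g) ^ (r * p) = 1 := by
      rw [← map_pow]
      refine Units.ext (ZMod.val_injective p (hprim.pow_inj (ZMod.val_lt _) (ZMod.val_lt _) ?_))
      rw [hprim.autToPow_spec ℚ, hξn, Units.val_one, ZMod.val_one'' hp.one_lt.ne', pow_one]
    have h2 : (hprim.autToPow ℚ g) ^ (p - 1) = 1 := by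
      rw [← ZMod.card_units p]
      exact pow_card_eq_one
    have h3 : hprim.autToPow ℚ g = 1 := by
      have := pow_gcd_eq_one.2 ⟨h1, h2⟩
      rwa [Nat.Coprime.gcd_eq_one hcop, pow_one] at this
    rw [← hprim.autToPow_spec ℚ g, h3, Units.val_one, ZMod.val_one'' hp.one_lt.ne', pow_one]
  have hgη : g η = η := by
    obtain ⟨j, -, hj⟩ := hprim.eq_pow_of_pow_eq_one (ξ := η / algebraMap ℚ Qb c)
      (by rw [div_pow, hηp, div_self (pow_ne_zero _ hc')])
    rw [eq_div_iff hc'] at hj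
    rw [← hj, map_mul, map_pow, hgξ, g.commutes]
  have hη0 : η ≠ 0 := fun h => pow_ne_zero p hc' (by rw [← hηp, h, zero_pow hp.ne_zero])
  have hkey : g η * θ = η * (g ^ r) θ := by
    rw [hη, map_prod]
    conv_rhs => rw [← Finset.prod_range_succ, Finset.prod_range_succ']
    simp only [pow_succ', AlgEquiv.mul_apply, pow_zero, AlgEquiv.one_apply]
  rw [hgη] at hkey
  exact hξ1 (by rw [hξ, div_eq_one_iff_eq hθ0]; exact (mul_left_cancel₀ hη0 hkey).symm)

/-- **Irreducible polynomials reducible modulo every prime**, in every composite degree. -/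
theorem exists_reducible_mod_every_prime {n : ℕ} (hn : 2 ≤ n) (hcomp : ¬ n.Prime) :
    ∃ f : ℤ[X], f.Monic ∧ f.natDegree = n ∧ Irreducible (f.map (Int.castRingHom ℚ)) ∧
      ∀ ℓ : ℕ, ℓ.Prime → ¬ Irreducible (f.map (Int.castRingHom (ZMod ℓ))) := by
  classical
  set p := n.minFac
  have hp : p.Prime := Nat.minFac_prime (by omega)
  obtain ⟨r, hr⟩ : p ∣ n := n.minFac_dvd
  have hr2 : 2 ≤ r := by
    rcases r with _ | _ | r
    · omega
    · exact absurd (by rw [hr]; simpa using hp) hcomp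
    · omega
  have hcop : (r * p).Coprime (p - 1) := by
    rw [mul_comm, ← hr]
    refine Nat.coprime_of_dvd fun k hk hkn hkp => ?_
    have : p ≤ k := Nat.minFac_le_of_dvd hk.two_le hkn
    have := hp.two_le
    have := Nat.le_of_dvd (by omega) hkp
    omega
  have : NeZero r := ⟨by omega⟩
  obtain ⟨K, hfin, hgal, ⟨e⟩, -⟩ :=
    FA.Summary.exists_galois_abelian (Multiplicative (ZMod r)) ∅
  have hrank : Module.finrank ℚ K = r := by
    rw [← IsGalois.card_aut_eq_finrank, Nat.card_congr e.toEquiv]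
    simp
  obtain ⟨a, hgen, hpow, c, hc0, hnorm⟩ : ∃ a : K, (∀ τ : K ≃ₐ[ℚ] K, τ a = a → τ = 1) ∧
      ((IsIntegral ℤ a) ∧ ∀ x : K, x ^ p ≠ a) ∧
      ∃ c : ℚ, c ≠ 0 ∧ ∏ τ : K ≃ₐ[ℚ] K, τ a = algebraMap ℚ K c ^ p := by
    have : NumberField K := { }
    obtain ⟨a, h1, h2, c, h3, h4⟩ := exists_element (K := K) (by omega) hp.two_le
    refine ⟨a, ?_, ⟨a.2, h2⟩, c, h3, ?_⟩
    · convert h1
    · rw [eq_ratCast]
      convert h4
  obtain ⟨θ, hθ⟩ := IsAlgClosed.exists_pow_nat_eq (a : Qb) hp.pos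
  have hθint : IsIntegral ℤ θ := IsIntegral.of_pow hp.pos
    (hθ ▸ (map_isIntegral_int (algebraMap K Qb) hpow.1))
  set q := minpoly ℚ θ
  have hq : q = (minpoly ℤ θ).map (Int.castRingHom ℚ) := by
    rw [← algebraMap_int_eq]
    exact minpoly.isIntegrallyClosed_eq_field_fractions' ℚ hθint
  have hθQ : IsIntegral ℚ θ := hθint.tower_top
  have hirr : Irreducible q := minpoly.irreducible hθQ
  have hdeg : q.natDegree = r * p := by
    have htop : IntermediateField.adjoin ℚ {a} = (⊤ : IntermediateField ℚ K) := by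
      have hfix : (IntermediateField.adjoin ℚ {a}).fixingSubgroup = ⊥ := by
        rw [eq_bot_iff]
        exact fun τ hτ => hgen τ ((IntermediateField.mem_fixingSubgroup_iff _ _).1 hτ a
          (IntermediateField.mem_adjoin_simple_self ℚ a))
      rw [← IsGalois.fixedField_fixingSubgroup (IntermediateField.adjoin ℚ {a}), hfix,
        IntermediateField.fixedField_bot]
    have hle : K ≤ ℚ⟮θ⟯ := by
      intro x hx
      have h : (⟨x, hx⟩ : K) ∈ IntermediateField.adjoin ℚ {a} := htop ▸ IntermediateField.mem_top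
      have key : ∀ y ∈ IntermediateField.adjoin ℚ {a}, (y : Qb) ∈ ℚ⟮θ⟯ := by
        intro y hy
        induction hy using IntermediateField.adjoin_induction with
        | mem y hy =>
          rw [Set.mem_singleton_iff.1 hy, ← hθ]
          exact pow_mem (IntermediateField.mem_adjoin_simple_self ℚ θ) p
        | algebraMap t =>
          rw [eq_ratCast, SubfieldClass.coe_ratCast]
          exact SubfieldClass.ratCast_mem _ t
        | add y z _ _ hy hz => exact add_mem hy hz
        | inv y _ hy => exact inv_mem hy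
        | mul y z _ _ hy hz => exact mul_mem hy hz
      exact key _ h
    have heq : IntermediateField.restrictScalars ℚ K⟮θ⟯ = ℚ⟮θ⟯ := by
      refine le_antisymm (fun x hx => ?_) ?_
      · rw [IntermediateField.mem_restrictScalars] at hx
        induction hx using IntermediateField.adjoin_induction with
        | mem y hy =>
          rw [Set.mem_singleton_iff.1 hy]
          exact IntermediateField.mem_adjoin_simple_self ℚ θ
        | algebraMap t => exact hle t.2
        | add y z _ _ hy hz => exact add_mem hy hz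
        | inv y _ hy => exact inv_mem hy
        | mul y z _ _ hy hz => exact mul_mem hy hz
      · exact IntermediateField.adjoin_simple_le_iff.2
          (IntermediateField.mem_adjoin_simple_self K θ)
    have hθK : IsIntegral K θ := hθQ.tower_top
    have hmin : minpoly K θ = X ^ p - C a := (minpoly.eq_of_irreducible_of_monic
      (X_pow_sub_C_irreducible_of_prime hp hpow.2) (by
        rw [map_sub, map_pow, aeval_X, aeval_C, hθ]
        exact sub_self _) (monic_X_pow_sub_C a hp.ne_zero)).symm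
    rw [← IntermediateField.adjoin.finrank hθQ, ← heq]
    show Module.finrank ℚ K⟮θ⟯ = r * p
    rw [← Module.finrank_mul_finrank ℚ K K⟮θ⟯, hrank, IntermediateField.adjoin.finrank hθK, hmin,
      natDegree_X_pow_sub_C]
  refine ⟨minpoly ℤ θ, minpoly.monic hθint, ?_, hq ▸ hirr, fun ℓ hℓ hirrℓ => ?_⟩
  · rw [← (minpoly.monic hθint).natDegree_map (Int.castRingHom ℚ), ← hq, hdeg, hr, mul_comm]
  · have : Fact ℓ.Prime := ⟨hℓ⟩
    obtain ⟨g, hg⟩ := exists_cyclicOn_algebraicClosure (minpoly.monic hθint) hirrℓ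
    rw [CyclicOn, ← hq] at hg
    exact not_cyclic_radical hp (hrank ▸ hr2) (hrank.symm ▸ hcop) hgen hc0 hnorm hirr
      (hrank.symm ▸ hdeg) (mem_rootSet.2 ⟨hirr.ne_zero, minpoly.aeval ℚ θ⟩) hθ hg

end Fermat.Agent.ReducibleModP
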