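import Mathlib
import Fermat.Agent.ReducibleModP.Criterion
import Fermat.Agent.VanDerWaerden.Criterion

/-!
# Prime degree, the symmetric group, and the criterion over `ℚ̄`

In prime degree Cauchy's theorem gives a cyclically transitive automorphism; for the group `Sₙ`
these are the `(n - 1)!` cycles of length `n`.
-/

namespace Fermat.Agent.ReducibleModP

open Polynomial NumberField IsDedekindDomain
open scoped Polynomial Nat

variable {f : ℤ[X]} {L : Type} [Field L]

/-- The condition on the permutation of the roots. -/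
lemma cyclicOn_iff [Algebra ℚ L] (σ : L ≃ₐ[ℚ] L) :
    CyclicOn f σ ↔ ∀ x y, ∃ i : ℕ, (VanDerWaerden.rootsAction f σ ^ i) x = y := by
  constructor
  · intro h x y
    obtain ⟨i, hi⟩ := h x.1 x.2 y.1 y.2
    refine ⟨i, Subtype.ext ?_⟩
    rwa [← map_pow, VanDerWaerden.rootsAction_apply]
  · intro h x hx y hy
    obtain ⟨i, hi⟩ := h ⟨x, hx⟩ ⟨y, hy⟩
    refine ⟨i, ?_⟩
    rw [← map_pow] at hi
    exact congrArg Subtype.val hi

/-- A permutation with a single orbit is a cycle through all points. -/
lemma forall_exists_pow_iff_cycleType {α : Type*} [Fintype α] [DecidableEq α]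
    (hα : 2 ≤ Fintype.card α) (π : Equiv.Perm α) :
    (∀ x y, ∃ i : ℕ, (π ^ i) x = y) ↔ π.cycleType = {Fintype.card α} := by
  constructor
  · intro h
    have hmoved : ∀ x, π x ≠ x := by
      intro x hx
      obtain ⟨y, hy⟩ := Fintype.exists_ne_of_one_lt_card (by omega) x
      obtain ⟨i, rfl⟩ := h x y
      exact hy (Equiv.Perm.pow_apply_eq_self_of_apply_eq_self hx i)
    have hc : π.IsCycle := by
      obtain ⟨x⟩ : Nonempty α := Fintype.card_pos_iff.1 (by omega)
      refine ⟨x, hmoved x, fun y _ => ?_⟩
      obtain ⟨i, hi⟩ := h x y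
      exact ⟨i, by rwa [zpow_natCast]⟩
    rw [hc.cycleType, Finset.eq_univ_iff_forall.2 fun x => Equiv.Perm.mem_support.2 (hmoved x),
      Finset.card_univ]
  · intro h x y
    have hc : π.IsCycle := Equiv.Perm.card_cycleType_eq_one.1 (by rw [h, Multiset.card_singleton])
    have hsupp : π.support = Finset.univ := by
      refine Finset.card_eq_iff_eq_univ _ |>.1 ?_
      rw [← Equiv.Perm.sum_cycleType, h, Multiset.sum_singleton]
    exact hc.exists_pow_eq (Equiv.Perm.mem_support.1 (hsupp ▸ Finset.mem_univ x))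
      (Equiv.Perm.mem_support.1 (hsupp ▸ Finset.mem_univ y))

/-- In prime degree there is always a cyclically transitive automorphism. -/
theorem exists_cyclicOn_of_prime [Algebra ℚ L]
    [IsSplittingField ℚ L (f.map (Int.castRingHom ℚ))] (hf : f.Monic)
    (hirr : Irreducible (f.map (Int.castRingHom ℚ))) (hn : f.natDegree.Prime) :
    ∃ σ : L ≃ₐ[ℚ] L, CyclicOn f σ := by
  classical
  set fQ := f.map (Int.castRingHom ℚ) with hfQ
  have : FiniteDimensional ℚ L := IsSplittingField.finiteDimensional L fQ
  have : Normal ℚ L := Normal.of_isSplittingField fQ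
  have : CharZero L := charZero_of_injective_algebraMap (algebraMap ℚ L).injective
  have : IsGalois ℚ L := { }
  have hcard : Fintype.card (fQ.rootSet L) = f.natDegree := by
    rw [card_rootSet_eq_natDegree hirr.separable (IsSplittingField.splits L fQ), hfQ,
      hf.natDegree_map]
  obtain ⟨x, hx⟩ : Nonempty (fQ.rootSet L) := Fintype.card_pos_iff.1 (hcard ▸ hn.pos)
  have hdvd : f.natDegree ∣ Nat.card (L ≃ₐ[ℚ] L) := by
    have h := minpoly.degree_dvd (K := ℚ) (IsIntegral.of_finite ℚ x)
    rw [← minpoly.eq_of_irreducible hirr (mem_rootSet.1 hx).2,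
      natDegree_mul_C (inv_ne_zero (leadingCoeff_ne_zero.2 hirr.ne_zero)), hfQ,
      hf.natDegree_map] at h
    rwa [IsGalois.card_aut_eq_finrank]
  have : Fact f.natDegree.Prime := ⟨hn⟩
  obtain ⟨σ, hσ⟩ := exists_prime_orderOf_dvd_card' f.natDegree hdvd
  refine ⟨σ, (cyclicOn_iff σ).2 ((forall_exists_pow_iff_cycleType (by
    rw [hcard]; exact hn.two_le) _).2 ?_)⟩
  have ho : orderOf (VanDerWaerden.rootsAction f σ) = Fintype.card (fQ.rootSet L) := by
    rw [hcard, orderOf_injective _ (VanDerWaerden.rootsAction_injective f), hσ]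
  have hc := Equiv.Perm.isCycle_of_prime_order'' (hcard.symm ▸ hn) ho
  rw [hc.cycleType, ← hc.orderOf, ho]

variable [CharZero L]

/-- A cyclically transitive automorphism of a splitting field makes the reduction irreducible at
infinitely many primes. -/
theorem infinite_irreducible_mod_of_splittingField [alg : Algebra ℚ L]
    [IsSplittingField ℚ L (f.map (Int.castRingHom ℚ))] (hf : f.Monic)
    (hirr : Irreducible (f.map (Int.castRingHom ℚ))) {σ : L ≃ₐ[ℚ] L} (hσ : CyclicOn f σ) :
    {q : ℕ | q.Prime ∧ Irreducible (f.map (Int.castRingHom (ZMod q)))}.Infinite := by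
  obtain rfl : alg = DivisionRing.toRatAlgebra := Subsingleton.elim _ _
  have : FiniteDimensional ℚ L :=
    IsSplittingField.finiteDimensional L (f.map (Int.castRingHom ℚ))
  have : NumberField L := { }
  have : Normal ℚ L := Normal.of_isSplittingField (f.map (Int.castRingHom ℚ))
  have : IsGalois ℚ L := { }
  exact infinite_irreducible_mod hf hirr
    (IsSplittingField.splits L (f.map (Int.castRingHom ℚ))) hσ

/-- For the group `Sₙ` the primes of irreducible reduction have density `1 / n`. -/
theorem hasDirichletDensity_of_card_eq_factorial [alg : Algebra ℚ L]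
    [IsSplittingField ℚ L (f.map (Int.castRingHom ℚ))] (hf : f.Monic)
    (hirr : Irreducible (f.map (Int.castRingHom ℚ)))
    (hG : Nat.card (L ≃ₐ[ℚ] L) = f.natDegree !) :
    {v : HeightOneSpectrum (𝓞 ℚ) |
      Irreducible (f.map (Int.castRingHom (ZMod (Ideal.absNorm v.asIdeal))))}.HasDirichletDensity
      (1 / f.natDegree : ℝ) := by
  classical
  obtain rfl : alg = DivisionRing.toRatAlgebra := Subsingleton.elim _ _
  set fQ := f.map (Int.castRingHom ℚ) with hfQ
  have : FiniteDimensional ℚ L := IsSplittingField.finiteDimensional L fQ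
  have : NumberField L := { }
  have : Normal ℚ L := Normal.of_isSplittingField fQ
  have : IsGalois ℚ L := { }
  have hd := hasDirichletDensity_irreducible_mod hf hirr (IsSplittingField.splits L fQ)
  set n := f.natDegree with hn
  have hn0 : 0 < n := by
    rw [hn, ← hf.natDegree_map (Int.castRingHom ℚ)]
    exact hirr.natDegree_pos
  have hcard : Fintype.card (fQ.rootSet L) = n := by
    rw [card_rootSet_eq_natDegree hirr.separable (IsSplittingField.splits L fQ), hfQ,
      hf.natDegree_map]
  suffices h : Nat.card {σ : L ≃ₐ[ℚ] L | CyclicOn f σ} * n = (n !) by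
    convert hd using 1
    have hc : (Nat.card {σ : L ≃ₐ[ℚ] L | CyclicOn f σ} : ℝ) * n = n ! := mod_cast h
    rw [hG, div_eq_div_iff (by positivity) (by positivity), one_mul, hc]
  have hbij : Function.Bijective (VanDerWaerden.rootsAction (L := L) f) :=
    (VanDerWaerden.rootsAction_injective f).bijective_of_nat_card_le (by
      rw [Nat.card_perm, Nat.card_eq_fintype_card (α := fQ.rootSet L), hcard, hG])
  rcases Nat.lt_or_ge n 2 with h2 | h2
  · obtain h1 : n = 1 := by omega
    have hall : ∀ σ : L ≃ₐ[ℚ] L, CyclicOn f σ := fun σ x hx y hy => ⟨0, congrArg Subtype.val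
      (Fintype.card_le_one_iff.1 (hcard.trans h1).le (⟨x, hx⟩ : fQ.rootSet L) ⟨y, hy⟩)⟩
    rw [show {σ : L ≃ₐ[ℚ] L | CyclicOn f σ} = Set.univ from Set.eq_univ_of_forall hall,
      Nat.card_univ, hG, h1, mul_one]
  · have he : Nat.card {σ : L ≃ₐ[ℚ] L | CyclicOn f σ}
        = ({π : Equiv.Perm (fQ.rootSet L) | π.cycleType = {n}} : Finset _).card := by
      rw [← Fintype.card_coe, ← Nat.card_eq_fintype_card]
      refine Nat.card_congr ((Equiv.ofBijective _ hbij).subtypeEquiv fun σ => ?_)
      rw [Set.mem_ofPred_eq, cyclicOn_iff, forall_exists_pow_iff_cycleType (hcard.symm ▸ h2), hcard,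
        Finset.mem_filter]
      simp
    rw [he, Equiv.Perm.card_of_cycleType, hcard, if_pos ⟨by simp, fun a ha => by
      rw [Multiset.mem_singleton.1 ha]; exact h2⟩]
    simp only [Multiset.sum_singleton, Nat.sub_self, Nat.factorial_zero, Multiset.prod_singleton,
      Multiset.toFinset_singleton, Finset.prod_singleton, Multiset.count_singleton_self,
      Nat.factorial_one, one_mul, mul_one]
    exact Nat.div_mul_cancel (Nat.dvd_factorial hn0 le_rfl)

end Fermat.Agent.ReducibleModP
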